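import Mathlib
import Fermat.Prelude.Def_FLTPrelim_Ramification

/-!
# S05: valuation facts for a valuation subring `A` of `ℚ̄` lying over a prime `q`, and for
elements of the inertia subgroup.  (one worker; statements frozen)

Unfold the Prelude/Mathlib definitions:
`A.LiesOverPrime q := (q : ℚ̄) ∈ A.nonunits`;
`A.inertiaSubgroupIn ℚ := (A.inertiaSubgroup ℚ).map (A.decompositionSubgroup ℚ).subtype`;
`A.decompositionSubgroup ℚ = MulAction.stabilizer Gal(ℚ̄/ℚ) A` (pointwise action, `open Pointwise`);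
`A.inertiaSubgroup ℚ = ker (decompositionSubgroup → RingAut (ResidueField A))`
(Mathlib/RingTheory/Valuation/RamificationGroup.lean).
Useful: `ValuationSubring.valuation_le_one_iff`, `valuation_lt_one_iff`, `valuation_eq_one_iff`,
`ValuationSubring.mem_nonunits_iff`, `IsLocalRing.residue_eq_zero_iff`, `Int.isCoprime_iff_gcd_eq_one`.
-/

set_option autoImplicit false

namespace Fermat.Agent.S05

namespace ValFacts

open scoped Pointwise

/-- An element of the decomposition group maps `A` onto `A`. -/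
theorem mem_iff (A : ValuationSubring (AlgebraicClosure ℚ))
    (σ : AlgebraicClosure ℚ ≃ₐ[ℚ] AlgebraicClosure ℚ) (hσ : σ ∈ A.decompositionSubgroup ℚ)
    (y : AlgebraicClosure ℚ) : σ y ∈ A ↔ y ∈ A := by
  have h : σ • A = A := MulAction.mem_stabilizer_iff.mp hσ
  constructor
  · intro hy
    have h1 : σ • y ∈ σ • A := by rw [h]; exact hy
    exact ValuationSubring.smul_mem_pointwise_smul_iff.mp h1
  · intro hy
    have h1 : σ • y ∈ σ • A := ValuationSubring.smul_mem_pointwise_smul σ y A hy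
    rw [h] at h1
    exact h1

/-- An element of the decomposition group preserves the order of valuations. -/
theorem val_le_iff (A : ValuationSubring (AlgebraicClosure ℚ))
    (σ : AlgebraicClosure ℚ ≃ₐ[ℚ] AlgebraicClosure ℚ) (hσ : σ ∈ A.decompositionSubgroup ℚ)
    (a b : AlgebraicClosure ℚ) :
    A.valuation (σ a) ≤ A.valuation (σ b) ↔ A.valuation a ≤ A.valuation b := by
  by_cases hb : b = 0
  · subst hb
    rw [map_zero, map_zero, le_zero_iff, le_zero_iff, Valuation.zero_iff, Valuation.zero_iff,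
      map_eq_zero_iff σ σ.injective]
  · have hσb : σ b ≠ 0 := (map_ne_zero_iff σ σ.injective).mpr hb
    have hvb : 0 < A.valuation b := zero_lt_iff.mpr ((Valuation.ne_zero_iff _).mpr hb)
    have hvσb : 0 < A.valuation (σ b) := zero_lt_iff.mpr ((Valuation.ne_zero_iff _).mpr hσb)
    rw [← div_le_one₀ hvσb, ← div_le_one₀ hvb, ← map_div₀ A.valuation, ← map_div₀ A.valuation,
      ← map_div₀ σ, A.valuation_le_one_iff, A.valuation_le_one_iff, mem_iff A σ hσ]

theorem val_lt_iff (A : ValuationSubring (AlgebraicClosure ℚ))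
    (σ : AlgebraicClosure ℚ ≃ₐ[ℚ] AlgebraicClosure ℚ) (hσ : σ ∈ A.decompositionSubgroup ℚ)
    (a b : AlgebraicClosure ℚ) :
    A.valuation (σ a) < A.valuation (σ b) ↔ A.valuation a < A.valuation b :=
  lt_iff_lt_of_le_iff_le (val_le_iff A σ hσ b a)

/-- `ℚ̄` is algebraic over `ℚ` (for the `ℚ`-algebra structure found by instance search). -/
theorem isAlgebraic_qbar : Algebra.IsAlgebraic ℚ (AlgebraicClosure ℚ) :=
  AlgebraicClosure.isAlgebraic ℚ

/-- All the iterates `σ ^ k x` are roots of the minimal polynomial of `x`. -/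
theorem pow_mem_rootSet (σ : AlgebraicClosure ℚ ≃ₐ[ℚ] AlgebraicClosure ℚ)
    (x : AlgebraicClosure ℚ) (k : ℕ) :
    (σ ^ k) x ∈ (minpoly ℚ x).rootSet (AlgebraicClosure ℚ) := by
  rw [Polynomial.mem_rootSet]
  refine ⟨minpoly.ne_zero (isAlgebraic_qbar.isAlgebraic x).isIntegral, ?_⟩
  rw [← minpoly.algEquiv_eq (σ ^ k) x]
  exact minpoly.aeval ℚ _

/-- The iterates `σ ^ k x` cannot be pairwise distinct. -/
theorem not_injective_pow (σ : AlgebraicClosure ℚ ≃ₐ[ℚ] AlgebraicClosure ℚ)
    (x : AlgebraicClosure ℚ) : ¬ Function.Injective fun k : ℕ => (σ ^ k) x := fun hinj =>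
  (Set.infinite_of_injective_forall_mem hinj (pow_mem_rootSet σ x))
    (Polynomial.rootSet_finite (minpoly ℚ x) (AlgebraicClosure ℚ))

/-- An element of the decomposition group preserves the valuation (as `ℚ̄/ℚ` is algebraic). -/
theorem val_eq (A : ValuationSubring (AlgebraicClosure ℚ))
    (σ : AlgebraicClosure ℚ ≃ₐ[ℚ] AlgebraicClosure ℚ) (hσ : σ ∈ A.decompositionSubgroup ℚ)
    (x : AlgebraicClosure ℚ) : A.valuation (σ x) = A.valuation x := by
  have hpow : ∀ k : ℕ, σ ^ k ∈ A.decompositionSubgroup ℚ := fun k => Subgroup.pow_mem _ hσ k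
  have hsucc : ∀ k : ℕ, (σ ^ (k + 1)) x = (σ ^ k) (σ x) := fun k => by
    rw [pow_succ, AlgEquiv.mul_apply]
  by_contra hne
  rcases lt_or_gt_of_ne hne with h | h
  · have hstep : ∀ k : ℕ, A.valuation ((σ ^ (k + 1)) x) < A.valuation ((σ ^ k) x) := fun k => by
      rw [hsucc k]
      exact (val_lt_iff A (σ ^ k) (hpow k) (σ x) x).mpr h
    have hanti : StrictAnti fun k : ℕ => A.valuation ((σ ^ k) x) :=
      strictAnti_nat_of_succ_lt hstep
    exact not_injective_pow σ x fun i j hij => hanti.injective (congrArg A.valuation hij)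
  · have hstep : ∀ k : ℕ, A.valuation ((σ ^ k) x) < A.valuation ((σ ^ (k + 1)) x) := fun k => by
      rw [hsucc k]
      exact (val_lt_iff A (σ ^ k) (hpow k) x (σ x)).mpr h
    have hmono : StrictMono fun k : ℕ => A.valuation ((σ ^ k) x) :=
      strictMono_nat_of_lt_succ hstep
    exact not_injective_pow σ x fun i j hij => hmono.injective (congrArg A.valuation hij)

/-- An element of the inertia group moves elements of `A` by elements of the maximal ideal. -/
theorem val_sub_lt_one (A : ValuationSubring (AlgebraicClosure ℚ))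
    (τ : A.decompositionSubgroup ℚ) (hτ : τ ∈ A.inertiaSubgroup ℚ)
    (x : AlgebraicClosure ℚ) (hx : A.valuation x ≤ 1) :
    A.valuation ((τ : AlgebraicClosure ℚ ≃ₐ[ℚ] AlgebraicClosure ℚ) x - x) < 1 := by
  have hxA : x ∈ A := (A.valuation_le_one_iff x).mp hx
  have h1 : τ • IsLocalRing.residue A ⟨x, hxA⟩ = IsLocalRing.residue A ⟨x, hxA⟩ :=
    DFunLike.congr_fun (MonoidHom.mem_ker.mp hτ) (IsLocalRing.residue A ⟨x, hxA⟩)
  have h2 : IsLocalRing.residue A (τ • (⟨x, hxA⟩ : A) - ⟨x, hxA⟩) = 0 := by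
    rw [map_sub, IsLocalRing.ResidueField.residue_smul, h1, sub_self]
  have h3 : (τ • (⟨x, hxA⟩ : A) - ⟨x, hxA⟩) ∈ IsLocalRing.maximalIdeal A :=
    (IsLocalRing.residue_eq_zero_iff _).mp h2
  exact (A.valuation_lt_one_iff _).mp h3

end ValFacts

open ValFacts

/-- An element of the inertia group preserves the valuation and acts trivially on the residue
field. -/
theorem inertia_val (A : ValuationSubring (AlgebraicClosure ℚ))
    (σ : AlgebraicClosure ℚ ≃ₐ[ℚ] AlgebraicClosure ℚ) (hσ : σ ∈ A.inertiaSubgroupIn ℚ) :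
    (∀ x : AlgebraicClosure ℚ, A.valuation (σ x) = A.valuation x) ∧
      (∀ x : AlgebraicClosure ℚ, A.valuation x ≤ 1 → A.valuation (σ x - x) < 1) := by
  obtain ⟨τ, hτ, rfl⟩ := Subgroup.mem_map.mp hσ
  exact ⟨fun x => val_eq A _ τ.2 x, fun x hx => val_sub_lt_one A τ hτ x hx⟩

theorem val_intCast_le_one (A : ValuationSubring (AlgebraicClosure ℚ)) (n : ℤ) :
    A.valuation ((n : ℤ) : AlgebraicClosure ℚ) ≤ 1 := by
  exact (A.valuation_le_one_iff _).mpr (intCast_mem A n)

theorem val_intCast_lt_one_iff (A : ValuationSubring (AlgebraicClosure ℚ)) {q : ℕ}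
    (hq : q.Prime) (hA : A.LiesOverPrime q) (n : ℤ) :
    A.valuation ((n : ℤ) : AlgebraicClosure ℚ) < 1 ↔ (q : ℤ) ∣ n := by
  have hq1 : A.valuation ((q : ℤ) : AlgebraicClosure ℚ) < 1 := by
    rw [Int.cast_natCast]
    exact A.mem_nonunits_iff.mp hA
  constructor
  · intro hn
    by_contra hdvd
    have hcop : IsCoprime (q : ℤ) n :=
      (Nat.prime_iff_prime_int.mp hq).coprime_iff_not_dvd.mpr hdvd
    obtain ⟨a, b, hab⟩ := hcop
    have h1 : A.valuation ((a : AlgebraicClosure ℚ) * (q : ℤ) + (b : AlgebraicClosure ℚ) * n)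
        = 1 := by
      rw [← Int.cast_mul, ← Int.cast_mul, ← Int.cast_add, hab, Int.cast_one, map_one]
    have h2 : A.valuation ((a : AlgebraicClosure ℚ) * (q : ℤ)) < 1 := by
      rw [map_mul]
      exact (mul_le_of_le_one_left' (val_intCast_le_one A a)).trans_lt hq1
    have h3 : A.valuation ((b : AlgebraicClosure ℚ) * n) < 1 := by
      rw [map_mul]
      exact (mul_le_of_le_one_left' (val_intCast_le_one A b)).trans_lt hn
    have h4 := (A.valuation.map_add _ _).trans_lt (max_lt h2 h3)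
    rw [h1] at h4
    exact lt_irrefl _ h4
  · rintro ⟨k, rfl⟩
    rw [Int.cast_mul, map_mul]
    exact (mul_le_of_le_one_right' (val_intCast_le_one A k)).trans_lt hq1

theorem val_intCast_eq_one_iff (A : ValuationSubring (AlgebraicClosure ℚ)) {q : ℕ}
    (hq : q.Prime) (hA : A.LiesOverPrime q) (n : ℤ) :
    A.valuation ((n : ℤ) : AlgebraicClosure ℚ) = 1 ↔ ¬ (q : ℤ) ∣ n := by
  rw [← val_intCast_lt_one_iff A hq hA n, not_lt]
  exact ⟨fun h => h.ge, fun h => le_antisymm (val_intCast_le_one A n) h⟩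

end Fermat.Agent.S05
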