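import Fermat.Agent.S05.Bridge
import Fermat.Agent.S05.ValFacts
import Fermat.Agent.S05.Core.MainGood
import Fermat.Agent.S05.Core.MainMult

/-!
# S05: the Frey curve's `p`-torsion is unramified at every odd prime `q ≠ p` (assembly).
(owner: helper20)

`final` is the statement of S05; it is proved from `Model.main_good` / `Model.main_mult`
(abstract valued-field core), `inertia_val`, `val_intCast_*` (ValFacts) and the bridge
`freyModel` (Bridge).  Cases: `q ∣ a`, `q ∣ b`, `q ∣ c` (multiplicative reduction, with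
`α = a^p`, `(-b)^p`, `(-c)^p`) and `q ∤ abc` (good reduction).
-/

set_option autoImplicit false

open WeierstrassCurve WeierstrassCurve.Affine WeierstrassCurve.Affine.Point

noncomputable section

namespace Fermat.Agent.S05

variable (P : FreyPackage)

/-- The Galois action on coordinates. -/
theorem freyCoord_smul (e₀ : Qb) (σ : Qb ≃ₐ[ℚ] Qb) (hσ : σ e₀ = e₀) (Q : (freyQb P).Point) :
    freyCoord P e₀ (σ • Q) = (freyCoord P e₀ Q).map (Prod.map σ σ) := by
  cases Q with
  | zero => rfl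
  | some x y hxy =>
    rw [algEquiv_smul_def, Point.map_some]
    simp only [freyCoord, Option.map_some, Prod.map_apply, map_sub, map_mul, map_add, hσ,
      AlgEquiv.coe_toAlgHom, map_ofNat]

theorem not_dvd_of_dvd_of_gcd {q : ℕ} (hq : q.Prime) {a b : ℤ} (hab : gcd a b = 1)
    (ha : (q : ℤ) ∣ a) : ¬ (q : ℤ) ∣ b := by
  intro hb
  have h1 : (q : ℤ) ∣ gcd a b := dvd_gcd ha hb
  rw [hab] at h1
  have h2 : (q : ℤ) = 1 ∨ (q : ℤ) = -1 := Int.isUnit_iff.mp (isUnit_of_dvd_one h1)
  have hq1 := hq.one_lt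
  omega

theorem final (P : FreyPackage) {q : ℕ} (hq : q.Prime) (hq2 : q ≠ 2) (hqp : q ≠ P.p) :
    P.GaloisRepUnramifiedAt q := by
  intro A hA σ hσ x
  obtain ⟨hσv, hσres⟩ := inertia_val A σ hσ
  let τ : (freyQb P).Point →+ (freyQb P).Point := DistribSMul.toAddMonoidHom _ σ
  have hx : P.p • (x.1 : (freyQb P).Point) = 0 := by
    have h1 := x.2
    rw [Submodule.mem_torsionBy_iff] at h1
    rw [← natCast_zsmul]
    exact h1
  suffices h : τ x.1 = x.1 from Subtype.ext h
  have hv2 : A.valuation (2 : Qb) = 1 := by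
    have h1 := (val_intCast_eq_one_iff A hq hA 2).mpr (by
      intro h2
      have h3 : q ∣ 2 := by exact_mod_cast h2
      exact hq2 ((Nat.prime_dvd_prime_iff_eq hq Nat.prime_two).mp h3))
    simpa using h1
  have hvp : A.valuation ((P.p : ℕ) : Qb) = 1 := by
    have h1 := (val_intCast_eq_one_iff A hq hA (P.p : ℤ)).mpr (by
      intro h2
      have h3 : q ∣ P.p := by exact_mod_cast h2
      exact hqp ((Nat.prime_dvd_prime_iff_eq hq P.pp).mp h3))
    simpa using h1
  have hodd : P.p ≠ 2 := by have := P.hp5; omega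
  have hpodd : Odd P.p := P.hp_odd
  have hp0 : P.p ≠ 0 := P.hp0
  have hsq : ∀ x : Qb, ∃ y, y ^ 2 = x := fun x => IsAlgClosed.exists_pow_nat_eq x (by norm_num)
  -- valuations of `A = a^p`, `B = b^p`, `C = c^p`
  have hvA_lt : (q : ℤ) ∣ P.a → A.valuation (cA P) < 1 := by
    intro h1
    rw [cA, map_pow]
    exact pow_lt_one₀ zero_le ((val_intCast_lt_one_iff A hq hA _).mpr h1) hp0
  have hvA_eq : ¬ (q : ℤ) ∣ P.a → A.valuation (cA P) = 1 := by
    intro h1
    rw [cA, map_pow, (val_intCast_eq_one_iff A hq hA _).mpr h1, one_pow]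
  have hvB_lt : (q : ℤ) ∣ P.b → A.valuation (cB P) < 1 := by
    intro h1
    rw [cB, map_pow]
    exact pow_lt_one₀ zero_le ((val_intCast_lt_one_iff A hq hA _).mpr h1) hp0
  have hvB_eq : ¬ (q : ℤ) ∣ P.b → A.valuation (cB P) = 1 := by
    intro h1
    rw [cB, map_pow, (val_intCast_eq_one_iff A hq hA _).mpr h1, one_pow]
  have hvC_lt : (q : ℤ) ∣ P.c → A.valuation (cA P + cB P) < 1 := by
    intro h1
    rw [cA_add_cB, map_pow]
    exact pow_lt_one₀ zero_le ((val_intCast_lt_one_iff A hq hA _).mpr h1) hp0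
  have hvC_eq : ¬ (q : ℤ) ∣ P.c → A.valuation (cA P + cB P) = 1 := by
    intro h1
    rw [cA_add_cB, map_pow, (val_intCast_eq_one_iff A hq hA _).mpr h1, one_pow]
  have hσint : ∀ n : ℤ, σ ((n : ℤ) : Qb) = n := fun n => map_intCast σ n
  by_cases ha : (q : ℤ) ∣ P.a
  · -- multiplicative reduction, `q ∣ a`
    have hb : ¬ (q : ℤ) ∣ P.b := not_dvd_of_dvd_of_gcd hq P.hgcdab ha
    let M : Model Qb (cA P) (-cB P) (freyQb P).Point :=
      freyModel P 0 (cA P) (-cB P) (by ring) (by ring) (by ring)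
    refine M.main_mult A.valuation hv2 (cA_ne_zero P) (hvA_lt ha) ?_ P.pp hodd hvp
      ((P.a : ℤ) : Qb) rfl hsq σ.toRingEquiv hσv hσres (hσint _) τ ?_ x.1 hx
    · rw [Valuation.map_neg]; exact hvB_eq hb
    · intro Q; exact freyCoord_smul P 0 σ (map_zero σ) Q
  · by_cases hb : (q : ℤ) ∣ P.b
    · -- multiplicative reduction, `q ∣ b`
      let M : Model Qb (-cB P) (cA P) (freyQb P).Point :=
        freyModel P 0 (-cB P) (cA P) (by ring) (by ring) (by ring)
      have hα' : -cB P = ((((-P.b : ℤ)) : ℤ) : Qb) ^ P.p := by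
        rw [cB, Int.cast_neg, hpodd.neg_pow]
      refine M.main_mult A.valuation hv2 (neg_ne_zero.mpr (cB_ne_zero P)) ?_ (hvA_eq ha) P.pp hodd
        hvp (((-P.b : ℤ)) : Qb) hα' hsq σ.toRingEquiv hσv hσres (hσint _) τ ?_ x.1 hx
      · rw [Valuation.map_neg]; exact hvB_lt hb
      · intro Q; exact freyCoord_smul P 0 σ (map_zero σ) Q
    · by_cases hc : (q : ℤ) ∣ P.c
      · -- multiplicative reduction, `q ∣ c`
        have hσA : σ (cA P) = cA P := by rw [cA, map_pow, hσint]
        let M : Model Qb (-(cA P + cB P)) (-cA P) (freyQb P).Point :=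
          freyModel P (cA P) (-(cA P + cB P)) (-cA P) (by ring) (by ring) (by ring)
        have hα' : -(cA P + cB P) = ((((-P.c : ℤ)) : ℤ) : Qb) ^ P.p := by
          rw [cA_add_cB, Int.cast_neg, hpodd.neg_pow]
        have hC0 : cA P + cB P ≠ 0 := by
          rw [cA_add_cB]; exact pow_ne_zero _ (Int.cast_ne_zero.mpr P.hc0)
        refine M.main_mult A.valuation hv2 (neg_ne_zero.mpr hC0) ?_ ?_ P.pp hodd
          hvp (((-P.c : ℤ)) : Qb) hα' hsq σ.toRingEquiv hσv hσres (hσint _) τ ?_ x.1 hx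
        · rw [Valuation.map_neg]; exact hvC_lt hc
        · rw [Valuation.map_neg]; exact hvA_eq ha
        · intro Q; exact freyCoord_smul P (cA P) σ hσA Q
      · -- good reduction
        let M : Model Qb (cA P) (-cB P) (freyQb P).Point :=
          freyModel P 0 (cA P) (-cB P) (by ring) (by ring) (by ring)
        refine M.main_good A.valuation hv2 (hvA_eq ha) ?_ ?_ hvp σ.toRingEquiv hσv hσres τ ?_ x.1 hx
        · rw [Valuation.map_neg]; exact hvB_eq hb
        · rw [sub_neg_eq_add]; exact hvC_eq hc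
        · intro Q; exact freyCoord_smul P 0 σ (map_zero σ) Q

end Fermat.Agent.S05
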