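import Fermat.Agent.S05.Core.Defs
import Fermat.Prelude.Def_FLTPrelim_FreyPackage
import Fermat.Prelude.Def_FLTPrelim_GaloisRep
import Fermat.Prelude.Def_FLTPrelim_Ramification

/-!
# S05: bridge between Mathlib's points of the Frey curve over `ℚ̄` and the abstract `Model`.
(owner: helper20)

In the coordinates `X = 4x - e₀`, `Y = 8y + 4x` the Frey curve
`y² + xy = x³ + a₂x² + a₄x` (`a₂ = (B - 1 - A)/4`, `a₄ = -AB/16`, `A = a^p`, `B = b^p`) becomes
`Y² = X (X - α) (X - β)` whenever `X (X - α) (X - β) = (X + e₀) (X + e₀ - A) (X + e₀ + B)`.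
-/

set_option autoImplicit false

open WeierstrassCurve WeierstrassCurve.Affine WeierstrassCurve.Affine.Point

noncomputable section

namespace Fermat.Agent.S05

/-- `ℚ̄`. -/
abbrev Qb : Type := AlgebraicClosure ℚ

/-- The Frey curve over `ℚ̄`. -/
abbrev freyQb (P : FreyPackage) : Affine Qb := (P.freyCurve⁄Qb)

/-- `A = a^p` in `ℚ̄`. -/
def cA (P : FreyPackage) : Qb := ((P.a : ℤ) : Qb) ^ P.p

/-- `B = b^p` in `ℚ̄`. -/
def cB (P : FreyPackage) : Qb := ((P.b : ℤ) : Qb) ^ P.p

theorem frey_a₁ (P : FreyPackage) : (freyQb P).a₁ = 1 := by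
  simp [freyQb, WeierstrassCurve.baseChange, FreyPackage.freyCurve]

theorem frey_a₂ (P : FreyPackage) : (freyQb P).a₂ = (cB P - 1 - cA P) / 4 := by
  simp [freyQb, WeierstrassCurve.baseChange, FreyPackage.freyCurve, cA, cB]

theorem frey_a₃ (P : FreyPackage) : (freyQb P).a₃ = 0 := by
  simp [freyQb, WeierstrassCurve.baseChange, FreyPackage.freyCurve]

theorem frey_a₄ (P : FreyPackage) : (freyQb P).a₄ = -(cA P) * (cB P) / 16 := by
  simp [freyQb, WeierstrassCurve.baseChange, FreyPackage.freyCurve, cA, cB]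

theorem frey_a₆ (P : FreyPackage) : (freyQb P).a₆ = 0 := by
  simp [freyQb, WeierstrassCurve.baseChange, FreyPackage.freyCurve]

variable (P : FreyPackage)

theorem frey_equation_iff (x y : Qb) :
    (freyQb P).Equation x y ↔
      (8 * y + 4 * x) ^ 2 = (4 * x) * (4 * x - cA P) * (4 * x + cB P) := by
  rw [Affine.equation_iff, frey_a₁, frey_a₂, frey_a₃, frey_a₄, frey_a₆]
  constructor
  · intro h; linear_combination 64 * h
  · intro h; linear_combination (1 / 64 : Qb) * h

theorem frey_Δ : (freyQb P).Δ = (cA P * cB P * (cA P + cB P)) ^ 2 / 256 := by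
  simp only [WeierstrassCurve.Δ, WeierstrassCurve.b₂, WeierstrassCurve.b₄, WeierstrassCurve.b₆,
    WeierstrassCurve.b₈, frey_a₁, frey_a₂, frey_a₃, frey_a₄, frey_a₆]
  ring

theorem cA_ne_zero : cA P ≠ 0 := by
  unfold cA
  exact pow_ne_zero _ (Int.cast_ne_zero.mpr P.ha0)

theorem cB_ne_zero : cB P ≠ 0 := by
  unfold cB
  exact pow_ne_zero _ (Int.cast_ne_zero.mpr P.hb0)

theorem cA_add_cB : cA P + cB P = ((P.c : ℤ) : Qb) ^ P.p := by
  unfold cA cB
  have := P.hFLT
  exact_mod_cast congrArg (fun t : ℤ => (t : Qb)) this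

theorem frey_Δ_ne_zero : (freyQb P).Δ ≠ 0 := by
  rw [frey_Δ]
  have hc : cA P + cB P ≠ 0 := by
    rw [cA_add_cB]; exact pow_ne_zero _ (Int.cast_ne_zero.mpr P.hc0)
  exact div_ne_zero (pow_ne_zero _ (mul_ne_zero (mul_ne_zero (cA_ne_zero P) (cB_ne_zero P)) hc))
    (by norm_num)

theorem frey_nonsingular_iff (x y : Qb) :
    (freyQb P).Nonsingular x y ↔
      (8 * y + 4 * x) ^ 2 = (4 * x) * (4 * x - cA P) * (4 * x + cB P) := by
  rw [← Affine.equation_iff_nonsingular_of_Δ_ne_zero (frey_Δ_ne_zero P), frey_equation_iff]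

/-- The coordinates `(4x - e₀, 8y + 4x)` of a point of the Frey curve. -/
def freyCoord (e₀ : Qb) : (freyQb P).Point → Option (Qb × Qb)
  | .zero => none
  | .some x y _ => some (4 * x - e₀, 8 * y + 4 * x)

/-- The Frey curve over `ℚ̄` as a `Model`, in the coordinates `X = 4x - e₀`, `Y = 8y + 4x`.
The three hypotheses say `X (X - α) (X - β) = (X + e₀) (X + e₀ - A) (X + e₀ + B)`. -/
def freyModel (e₀ α β : Qb) (hs : α + β = cA P - cB P - 3 * e₀)
    (hp : α * β = 3 * e₀ ^ 2 + 2 * (cB P - cA P) * e₀ - cA P * cB P)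
    (h0 : e₀ * (e₀ - cA P) * (e₀ + cB P) = 0) :
    Model Qb α β (freyQb P).Point where
  coord := freyCoord P e₀
  coord_eq_none_iff := by
    intro Q
    cases Q with
    | zero => exact ⟨fun _ => rfl, fun _ => rfl⟩
    | some x y hxy => simp [freyCoord]
  coord_injective := by
    intro Q₁ Q₂ h12
    cases Q₁ with
    | zero =>
      cases Q₂ with
      | zero => rfl
      | some x y hxy => simp [freyCoord] at h12
    | some x₁ y₁ h₁ =>
      cases Q₂ with
      | zero => simp [freyCoord] at h12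
      | some x₂ y₂ h₂ =>
        simp only [freyCoord, Option.some.injEq, Prod.mk.injEq] at h12
        obtain ⟨hx, hy⟩ := h12
        have hx' : x₁ = x₂ := by linear_combination (1 / 4 : Qb) * hx
        have hy' : y₁ = y₂ := by linear_combination (1 / 8 : Qb) * hy - (1 / 8 : Qb) * hx
        subst hx' hy'
        rfl
  equation := by
    intro Q X Y hQ
    cases Q with
    | zero => simp [freyCoord] at hQ
    | some x y hxy =>
      simp only [freyCoord, Option.some.injEq, Prod.mk.injEq] at hQ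
      obtain ⟨rfl, rfl⟩ := hQ
      have h1 := (frey_nonsingular_iff P x y).mp hxy
      linear_combination h1 + (4 * x - e₀) ^ 2 * hs - (4 * x - e₀) * hp + h0
  exists_of_equation := by
    intro X Y hXY
    have hns : (freyQb P).Nonsingular ((X + e₀) / 4) ((Y - (X + e₀)) / 8) := by
      rw [frey_nonsingular_iff]
      linear_combination hXY - X ^ 2 * hs + X * hp - h0
    refine ⟨.some _ _ hns, ?_⟩
    simp only [freyCoord, Option.some.injEq, Prod.mk.injEq]
    constructor <;> ring
  coord_neg := by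
    intro Q X Y hQ
    cases Q with
    | zero => simp [freyCoord] at hQ
    | some x y hxy =>
      simp only [freyCoord, Option.some.injEq, Prod.mk.injEq] at hQ
      obtain ⟨rfl, rfl⟩ := hQ
      rw [Point.neg_some]
      simp only [freyCoord, Option.some.injEq, Prod.mk.injEq, Affine.negY, frey_a₁, frey_a₃,
        true_and]
      ring
  coord_add := by
    intro Q₁ Q₂ X₁ Y₁ X₂ Y₂ hQ₁ hQ₂ hne
    cases Q₁ with
    | zero => simp [freyCoord] at hQ₁
    | some x₁ y₁ h₁ =>
      cases Q₂ with
      | zero => simp [freyCoord] at hQ₂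
      | some x₂ y₂ h₂ =>
        simp only [freyCoord, Option.some.injEq, Prod.mk.injEq] at hQ₁ hQ₂
        obtain ⟨rfl, rfl⟩ := hQ₁
        obtain ⟨rfl, rfl⟩ := hQ₂
        have hx : x₁ ≠ x₂ := fun hx => hne (by rw [hx])
        have hx' : x₁ - x₂ ≠ 0 := sub_ne_zero.mpr hx
        rw [Point.add_of_X_ne hx]
        refine ⟨8 * (freyQb P).addY x₁ x₂ y₁ ((freyQb P).slope x₁ x₂ y₁ y₂) +
          4 * (freyQb P).addX x₁ x₂ ((freyQb P).slope x₁ x₂ y₁ y₂), ?_⟩
        simp only [freyCoord, Option.some.injEq, Prod.mk.injEq, and_true]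
        rw [Affine.slope_of_X_ne hx, Affine.addX, frey_a₁, frey_a₂]
        have e1 : (8 * y₁ + 4 * x₁ - (8 * y₂ + 4 * x₂)) / (4 * x₁ - e₀ - (4 * x₂ - e₀))
            = 2 * ((y₁ - y₂) / (x₁ - x₂)) + 1 := by
          field_simp
          ring
        rw [e1]
        linear_combination -hs
  coord_two := by
    intro Q X Y hQ hY
    cases Q with
    | zero => simp [freyCoord] at hQ
    | some x y hxy =>
      simp only [freyCoord, Option.some.injEq, Prod.mk.injEq] at hQ
      obtain ⟨rfl, rfl⟩ := hQ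
      have hy : y ≠ (freyQb P).negY x y := by
        intro hy
        apply hY
        rw [Affine.negY, frey_a₁, frey_a₃] at hy
        linear_combination 4 * hy
      have h2 : 2 * y + x ≠ 0 := by
        intro h2
        apply hY
        linear_combination 4 * h2
      rw [Point.add_self_of_Y_ne hy]
      refine ⟨8 * (freyQb P).addY x x y ((freyQb P).slope x x y y) +
        4 * (freyQb P).addX x x ((freyQb P).slope x x y y), ?_⟩
      simp only [freyCoord, Option.some.injEq, Prod.mk.injEq, and_true]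
      rw [Affine.slope_of_Y_ne rfl hy, Affine.addX, Affine.negY, frey_a₁, frey_a₂, frey_a₃,
        frey_a₄]
      have hden : y - (-y - 1 * x - 0) = 2 * y + x := by ring
      rw [hden]
      have e1 : (3 * (4 * x - e₀) ^ 2 - 2 * (α + β) * (4 * x - e₀) + α * β) / (2 * (8 * y + 4 * x))
          = 2 * ((3 * x ^ 2 + 2 * ((cB P - 1 - cA P) / 4) * x + -cA P * cB P / 16 - 1 * y) /
              (2 * y + x)) + 1 := by
        have h4 : 8 * y + 4 * x = 4 * (2 * y + x) := by ring
        rw [hs, hp, h4]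
        field_simp
        ring
      rw [e1]
      linear_combination -hs

end Fermat.Agent.S05
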